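import Fermat.Agent.S27.Spec
import Fermat.Agent.S25.H146.SheafSep
import Fermat.Agent.S25.H146.SheafGlue
import Fermat.Agent.S25.H566.DictUnit
import Fermat.Agent.S25.H687.DDFinal
import Fermat.Agent.S25.H265.GDCCurve
import Fermat.Agent.S25.H265.GDCDeg
import Fermat.Agent.S25.H265.GDCBaseChange
import Fermat.Agent.S25.H550.DegConst
import Fermat.Agent.S25.H986.DictIsoMpr
import Fermat.Agent.S25.H505.DictBC
import Fermat.Agent.S25.H505.DictSections
import Fermat.Agent.S25.H505.DictGlue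
import Fermat.Agent.S25.H567.AbelFamily
import Fermat.Agent.S25.H747.AlgAbelTop
import Fermat.Agent.S25.H266.AbLocRig
import Fermat.Agent.S25.H266.AbRigLocal
import Fermat.Agent.S25.H927.AbAlgAA2
import Fermat.Agent.S25.H206.SurjFinal

/-!
# Row S27, leaf PTS-DICT (helper506)

`ptsDict : Stmt.PtsDict k` : over the (algebraically closed) base field `k`, the `k`-points of
the Jacobian `D` of a curve with a two-chart presentation `Ch` are the gluing data of degree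
zero up to isomorphism, under the S25 dictionary `Corr`.

Formal from the S25 blocks on main: `DictSections`, `DictGlue`, `DictIso`, `DictDeg`
(assembled here exactly as in `S25.Assembly.result_final`), `DegConst` + `BCId`
(`Deg0 ↔ degree = 0` over the base field), local rigidifiability (over a field: global), and the
universal property of the representing object.
-/

set_option autoImplicit false
set_option linter.unusedSectionVars false
universe u
open CategoryTheory CategoryTheory.Limits AlgebraicGeometry AlgebraicGeometry.RelPicard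
  NeronModelInfra GoodReductionJacobian
open scoped TensorProduct

namespace Fermat.Agent.S27.H506

open Fermat.Agent.S25

variable {k : Type u} [Field k] {C : Scheme.{u}} {c : C ⟶ Spec (CommRingCat.of k)}
  {ε : SchemeHomOver (𝟙 (Spec (CommRingCat.of k))) c}

/-- `Corr` is invariant under isomorphism of the gluing datum. -/
theorem corr_of_isIso (Ch : ChartOf c ε) {A : Type u} [CommRing A] [Algebra k A]
    {L : (pullback c (specStr k A)).Modules} {G G' : CurveGD k Ch.B₀ Ch.B₁ Ch.B₀₁ A}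
    (h : Corr Ch A L G) (i : G.IsIso G') : Corr Ch A L G' := by
  obtain ⟨e₀, e₁, e₀₁, h₀, h₁, h₀₁, hr₀, hr₁⟩ := h
  obtain ⟨i⟩ := i
  refine ⟨e₀.trans i.e₀.toAddEquiv, e₁.trans i.e₁.toAddEquiv, e₀₁.trans i.e₀₁.toAddEquiv,
    ⟨fun a s => ?_, fun f s => ?_⟩, ⟨fun a s => ?_, fun f s => ?_⟩,
    ⟨fun a s => ?_, fun f s => ?_⟩, fun s => ?_, fun s => ?_⟩
  · show i.e₀ (e₀ _) = _ • i.e₀ (e₀ s)
    rw [h₀.1 a s, map_smul]
  · show i.e₀ (e₀ _) = _ • i.e₀ (e₀ s)
    rw [h₀.2 f s, map_smul]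
  · show i.e₁ (e₁ _) = _ • i.e₁ (e₁ s)
    rw [h₁.1 a s, map_smul]
  · show i.e₁ (e₁ _) = _ • i.e₁ (e₁ s)
    rw [h₁.2 f s, map_smul]
  · show i.e₀₁ (e₀₁ _) = _ • i.e₀₁ (e₀₁ s)
    rw [h₀₁.1 a s, map_smul]
  · show i.e₀₁ (e₀₁ _) = _ • i.e₀₁ (e₀₁ s)
    rw [h₀₁.2 f s, map_smul]
  · show i.e₀₁ (e₀₁ _) = G'.r₀ (i.e₀ (e₀ s))
    rw [hr₀ s, i.comm₀]
  · show i.e₀₁ (e₀₁ _) = G'.r₁ (i.e₁ (e₁ s))
    rw [hr₁ s, i.comm₁]

section Alg

variable {B₀ B₁ B₀₁ : Type u} [CommRing B₀] [CommRing B₁] [CommRing B₀₁]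
  [Algebra k B₀] [Algebra k B₁] [Algebra k B₀₁] [Algebra B₀ B₀₁] [Algebra B₁ B₀₁]
  [IsScalarTower k B₀ B₀₁] [IsScalarTower k B₁ B₀₁]

/-- Over a field every gluing datum is rigidifiable. -/
theorem rigidifiable_of_field (e : B₁ →ₐ[k] k) (K : Type u) [Field K] [Algebra k K]
    (G : CurveGD k B₀ B₁ B₀₁ K) : G.Rigidifiable e := by
  obtain ⟨f, hf, h⟩ := H266.exists_rigidifiable_of_isBC e G (⊥ : Ideal K) Ideal.isPrime_bot
  have hf0 : f ≠ 0 := fun h0 => hf (by rw [h0]; exact Ideal.zero_mem _)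
  exact h K (AlgHom.id k K) (by simpa using hf0) G (H265.curveGD_isBC_id G)

/-- Over the base field, `Deg0` means `degree = 0`. -/
theorem deg0_iff_degree_eq_zero {x : B₀} {y : B₁} {e : B₁ →ₐ[k] k}
    (hC : IsCurveChart k B₀ B₁ B₀₁ x y e) (G : CurveGD k B₀ B₁ B₀₁ k) :
    G.Deg0 ↔ G.degree = 0 := by
  constructor
  · intro h
    exact h k (AlgHom.id k k) G (H265.curveGD_isBC_id G)
  · intro h K _ _ φ G' hBC
    rw [← h]
    exact (H550.degConst x y e hC k G k K (AlgHom.id k k) φ G G'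
      (H265.curveGD_isBC_id G) hBC).symm

end Alg

/-- `Stmt.DictDeg`, assembled as in `S25.Assembly.result_final`. -/
theorem dictDeg [IsAlgClosed k] [IsProper c] [SmoothOfRelativeDimension 1 c] [IsIntegral C]
    (Ch : ChartOf c ε) : Stmt.DictDeg Ch := by
  have hSheafGlue : Stmt.SheafGlue c ε := H146.sheafGlue k c ε
  have hAA2 : H747.StmtAA2 k Ch.B₀ Ch.B₁ Ch.B₀₁ := H927.stmtAA2
  have hAA6 : H747.StmtAA6 k Ch.B₀ Ch.B₁ Ch.B₀₁ := H206.stmtAA6 k Ch.B₀ Ch.B₁ Ch.B₀₁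
  have hGlue : Stmt.DictGlue Ch := H505.dictGlue Ch
  have hSec : Stmt.DictSections Ch := H505.dictSections Ch
  have hUnit : H687.DictUnit Ch := fun A _ _ => H566.dictUnit Ch A
  have hIso : Stmt.DictIso Ch := H986.dictIso Ch
  have hBC : Stmt.DictBC Ch := H505.dictBC Ch
  have hEx : Stmt.AlgBCExists Ch := H265.algBCExists Ch
  have hId : H687.BCId k Ch.B₀ Ch.B₁ Ch.B₀₁ := fun A _ _ G => H265.curveGD_isBC_id G
  have hComp : H687.BCComp k Ch.B₀ Ch.B₁ Ch.B₀₁ :=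
    fun A A' A'' _ _ _ _ _ _ φ ψ G G' G'' h h' => H265.curveGD_isBC_comp h h'
  have hDegIso : H687.DegIso k Ch.B₀ Ch.B₁ Ch.B₀₁ :=
    fun K _ _ G G' h => H265.degree_eq_of_isIso h
  have hDegConst : H687.DegConst k Ch.B₀ Ch.B₁ Ch.B₀₁ := H550.degConst
  have hAA4 : H747.StmtAA4 k Ch.B₀ Ch.B₁ Ch.B₀₁ := fun x y e hC g A _ _ P 𝔭 h𝔭 =>
    H266.abelDatum_locRig_of_isBC e g A P (fun A' _ _ ψ => hAA2 x y e hC g A A' ψ P) 𝔭 h𝔭
  obtain ⟨𝔉⟩ := H747.algAbel_of_leaves hAA2 hAA4 hAA6 Ch.x Ch.y Ch.e Ch.isCurveChart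
  have hAbelAlg : H687.AbelAlg Ch :=
    H567.abelAlg Ch 𝔉 hSheafGlue (H146.sheafSep k c ε) hGlue hIso hBC
      (fun A _ _ => H566.dictUnit Ch A)
  exact H687.dictDeg_final Ch hSec hIso hBC hEx hUnit hId hComp hDegIso hDegConst hAbelAlg

/-- **PTS-DICT.** -/
theorem ptsDict (k : Type u) [Field k] : Fermat.Agent.S27.Stmt.PtsDict k := by
  intro _ C c _ _ _ ε Ch D hrep
  have hGlue : Stmt.DictGlue Ch := H505.dictGlue Ch
  have hSec : Stmt.DictSections Ch := H505.dictSections Ch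
  have hIso : Stmt.DictIso Ch := H986.dictIso Ch
  have hDeg : Stmt.DictDeg Ch := dictDeg Ch
  have hmem : ∀ g : SchemeHomOver (specStr k k) D.toBase,
      FibrewiseAlgEquivZero (hrep.poincare.pullbackAlong g) := fun g =>
    (algEquivZeroCut c ε).pullback_mem _ _ g _ hrep.poincare_mem
  refine ⟨fun g => ?_, fun G hG => ?_, fun g g' G G' hg hg' => ⟨?_, fun h => ?_⟩⟩
  · obtain ⟨G, hG, -⟩ := hSec k (hrep.poincare.pullbackAlong g)
    exact ⟨G, (deg0_iff_degree_eq_zero Ch.isCurveChart G).mp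
      ((hDeg k _ G hG).mp (hmem g)), hG⟩
  · obtain ⟨M, hM⟩ := hGlue k G (rigidifiable_of_field Ch.e k G)
    have hM0 : FibrewiseAlgEquivZero M :=
      (hDeg k M G hM).mpr ((deg0_iff_degree_eq_zero Ch.isCurveChart G).mpr hG)
    refine ⟨hrep.classify (specStr k k) M hM0, ?_⟩
    obtain ⟨G', hG', -⟩ := hSec k (hrep.poincare.pullbackAlong (hrep.classify (specStr k k) M hM0))
    exact corr_of_isIso Ch hG'
      ((hIso k _ M G' G hG' hM).mp (hrep.classify_spec (specStr k k) M hM0))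
  · rintro rfl
    exact (hIso k _ _ G G' hg hg').mp ⟨Iso.refl _⟩
  · exact hrep.ext_of_iso (specStr k k) g g' ((hIso k _ _ G G' hg hg').mpr h)

end Fermat.Agent.S27.H506
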