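import Fermat.Agent.S27.H506.PtsDict
import Fermat.Agent.S27.Grp.Spec
import Fermat.Agent.S25.H205.LocalP

/-!
# Row S27, block GRP: the bundled S25 dictionary `Grp.Dict Ch` (helper506)

All fields are statements of row S25 proved on main.
-/

set_option autoImplicit false
set_option linter.unusedSectionVars false
universe u
open CategoryTheory CategoryTheory.Limits AlgebraicGeometry AlgebraicGeometry.RelPicard
  NeronModelInfra GoodReductionJacobian
open scoped TensorProduct

namespace Fermat.Agent.S27.H506

open Fermat.Agent.S25

variable {k : Type u} [Field k] {C : Scheme.{u}} {c : C ⟶ Spec (CommRingCat.of k)}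
  {ε : SchemeHomOver (𝟙 (Spec (CommRingCat.of k))) c}

/-- The S25 dictionary, bundled for block GRP of row S27. -/
theorem grpDict [IsAlgClosed k] [IsProper c] [SmoothOfRelativeDimension 1 c] [IsIntegral C]
    (Ch : ChartOf c ε) : Fermat.Agent.S27.Grp.Dict Ch where
  sec := H505.dictSections Ch
  glue := H505.dictGlue Ch
  iso := H986.dictIso Ch
  bc := H505.dictBC Ch
  bcExists := H265.algBCExists Ch
  deg := dictDeg Ch
  unit := fun A _ _ => H566.dictUnit Ch A
  degConst := fun K K' _ _ _ _ φ G G' h =>
    (H550.degConst Ch.x Ch.y Ch.e Ch.isCurveChart K G K K' (AlgHom.id k K) φ G G'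
      (H265.curveGD_isBC_id G) h).symm
  sheafSep := H146.sheafSep k c ε
  sheafGlue := H146.sheafGlue k c ε
  localP := H205.localP c ε

end Fermat.Agent.S27.H506
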